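import Mathlib
import Fermat.Agent.LT.T3.Spec

/-!
# Row LT, tower T3, leaf T3.14 (`EKIdealC`), part 1: elementary facts (helper465), OFF-MAIN

Continuity of `unip`, the homomorphism property of `torK`, the `(0,0)` entry of `n(x) diag(β,1)`.
-/

set_option autoImplicit false

open IsDedekindDomain NumberField MeasureTheory
open Fermat.Agent.LT.H556.A0

noncomputable section

namespace Fermat.Agent.LT.T3.H465

open Fermat.Agent.LT.T3

variable (K : Type) [Field K] [NumberField K]

/-- `x ↦ n(x)` is continuous. -/
theorem continuous_unip465 : Continuous (unip K) := by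
  rw [Units.continuous_iff]
  constructor
  · refine continuous_matrix (fun i j => ?_)
    fin_cases i <;> fin_cases j <;> simp [unip] <;> fun_prop
  · refine continuous_matrix (fun i j => ?_)
    fin_cases i <;> fin_cases j <;> simp [unip] <;> fun_prop

/-- The `(0,1)` entry is continuous on `GL₂(𝔸_K)`. -/
theorem continuous_entry465 (i j : Fin 2) :
    Continuous (fun g : G K => (g : Matrix (Fin 2) (Fin 2) (Adl K)) i j) :=
  Continuous.matrix_elem Units.continuous_val i j

theorem unip_entry01_465 (x : Adl K) :
    ((unip K x : G K) : Matrix (Fin 2) (Fin 2) (Adl K)) 0 1 = x := by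
  simp [unip]

theorem torK_one465 : torK K 1 = 1 := by
  apply Units.ext
  ext i j
  fin_cases i <;> fin_cases j <;> simp [torK]

theorem torK_mul465 (α β : Kˣ) : torK K (α * β) = torK K α * torK K β := by
  apply Units.ext
  ext i j
  fin_cases i <;> fin_cases j <;>
    simp [torK, Matrix.mul_apply, Fin.sum_univ_two, map_mul]

/-- `torK` as a homomorphism. -/
def torKHom465 : Kˣ →* G K where
  toFun := torK K
  map_one' := torK_one465 K
  map_mul' := torK_mul465 K

theorem torK_zpow465 (α : Kˣ) (j : ℤ) : torK K α ^ j = torK K (α ^ j) :=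
  (map_zpow (torKHom465 K) α j).symm

/-- The `(0,0)` entry of `n(x) diag(β,1)` is `β`. -/
theorem unip_mul_torK_entry465 (x : Adl K) (β : Kˣ) :
    ((unip K x * torK K β : G K) : Matrix (Fin 2) (Fin 2) (Adl K)) 0 0 = emb K (β : K) := by
  simp [unip, torK, Matrix.mul_apply, Fin.sum_univ_two]

end Fermat.Agent.LT.T3.H465

end
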