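import Mathlib
import Fermat.Agent.LT.T3.Spec
import Fermat.Agent.LT.T3.H465.EKBasic

/-!
# Row LT, tower T3, leaf T3.14 (`EKIdealC`), part 2: the mixed sum (helper465), OFF-MAIN

`hasSum_mix465`: for `f` EK with respect to `α`, a test function `w` and continuous maps
`a, b : G → G`,

  `∑_j ∫_x ∫_y w(y) f(a(y)⁻¹ n(x) γʲ b(y)) dμ(y) dν(x) = 0`   (`HasSum` over `j ∈ ℤ`).

Inputs: Fubini on `𝔸_K × GL₂(𝔸_K)` and the finiteness of `{ξ ∈ K : ξ ∈ C}` for compact `C ⊂ 𝔸_K`.
-/

set_option autoImplicit false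

open IsDedekindDomain NumberField MeasureTheory
open Fermat.Agent.LT.H556.A0
open scoped Pointwise

noncomputable section

namespace Fermat.Agent.LT.T3.H465

open Fermat.Agent.LT.T3

variable {K : Type} [Field K] [NumberField K]

/-- The integrand of the mixed EK sum. -/
def mix465 (f w : G K → ℂ) (a b : G K → G K) (γ : G K) (p : Adl K × G K) : ℂ :=
  w p.2 * f ((a p.2)⁻¹ * unip K p.1 * γ * b p.2)

theorem continuous_mix465 {f w : G K → ℂ} {a b : G K → G K} (hf : Continuous f)
    (hw : Continuous w) (ha : Continuous a) (hb : Continuous b) (γ : G K) :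
    Continuous (mix465 f w a b γ) := by
  unfold mix465
  have hu := continuous_unip465 K
  have h1 : Continuous fun p : Adl K × G K => (a p.2)⁻¹ * unip K p.1 * γ * b p.2 :=
    ((((ha.comp continuous_snd).inv).mul (hu.comp continuous_fst)).mul continuous_const).mul
      (hb.comp continuous_snd)
  exact (hw.comp continuous_snd).mul (hf.comp h1)

/-- The compact set which contains `n(x) γ` as soon as the integrand does not vanish. -/
def mixSet465 (f w : G K → ℂ) (a b : G K → G K) : Set (G K) :=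
  (a '' tsupport w) * tsupport f * (b '' tsupport w)⁻¹

theorem isCompact_mixSet465 {f w : G K → ℂ} {a b : G K → G K}
    (hf : HasCompactSupport f) (hw : HasCompactSupport w) (ha : Continuous a)
    (hb : Continuous b) : IsCompact (mixSet465 f w a b) :=
  ((IsCompact.image hw ha).mul hf).mul (IsCompact.image hw hb).inv

theorem mem_mixSet465 {f w : G K → ℂ} {a b : G K → G K} {γ : G K} {x : Adl K} {y : G K}
    (hw0 : w y ≠ 0) (hf0 : f ((a y)⁻¹ * unip K x * γ * b y) ≠ 0) :
    unip K x * γ ∈ mixSet465 f w a b := by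
  have hy : y ∈ tsupport w := subset_tsupport _ hw0
  have h1 : a y * ((a y)⁻¹ * unip K x * γ * b y) * (b y)⁻¹ ∈ mixSet465 f w a b :=
    Set.mul_mem_mul (Set.mul_mem_mul ⟨y, hy, rfl⟩ (subset_tsupport _ hf0))
      (Set.inv_mem_inv.mpr ⟨y, hy, rfl⟩)
  have h2 : a y * ((a y)⁻¹ * unip K x * γ * b y) * (b y)⁻¹ = unip K x * γ := by group
  rwa [h2] at h1

theorem hasCompactSupport_mix465 [T2Space (Adl K)] [T2Space (G K)] {f w : G K → ℂ}
    {a b : G K → G K} (hf : HasCompactSupport f) (hw : HasCompactSupport w)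
    (ha : Continuous a) (hb : Continuous b) (γ : G K) :
    HasCompactSupport (mix465 f w a b γ) := by
  have hC : IsCompact (mixSet465 f w a b * {γ⁻¹}) :=
    (isCompact_mixSet465 hf hw ha hb).mul isCompact_singleton
  have hCx : IsCompact ((fun g : G K => (g : Matrix (Fin 2) (Fin 2) (Adl K)) 0 1) ''
      (mixSet465 f w a b * {γ⁻¹})) := hC.image (continuous_entry465 K 0 1)
  refine HasCompactSupport.intro (hCx.prod hw) ?_
  rintro ⟨x, y⟩ hxy
  by_contra h0
  apply hxy
  have hw0 : w y ≠ 0 := left_ne_zero_of_mul h0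
  have hf0 : f ((a y)⁻¹ * unip K x * γ * b y) ≠ 0 := right_ne_zero_of_mul h0
  refine ⟨⟨unip K x, ?_, unip_entry01_465 K x⟩, subset_tsupport _ hw0⟩
  have h1 := Set.mul_mem_mul (mem_mixSet465 hw0 hf0) (Set.mem_singleton γ⁻¹)
  rwa [mul_inv_cancel_right] at h1

/-- Finiteness of the set of exponents, `α` of infinite order. -/
theorem finite_exponents465
    (hfin : ∀ C₁ : Set (Adl K), IsCompact C₁ → {ξ : K | emb K ξ ∈ C₁}.Finite)
    {α : Kˣ} (hα : ¬ IsOfFinOrder α) {C : Set (G K)} (hC : IsCompact C) :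
    {j : ℤ | ∃ x : Adl K, unip K x * torK K α ^ j ∈ C}.Finite := by
  have hC₁ : IsCompact ((fun g : G K => (g : Matrix (Fin 2) (Fin 2) (Adl K)) 0 0) '' C) :=
    hC.image (continuous_entry465 K 0 0)
  have hΞ := hfin _ hC₁
  have hinj : Function.Injective (fun j : ℤ => ((α ^ j : Kˣ) : K)) :=
    Units.val_injective.comp (injective_zpow_iff_not_isOfFinOrder.mpr hα)
  refine (hΞ.preimage (hinj.injOn)).subset ?_
  rintro j ⟨x, hx⟩
  refine ⟨unip K x * torK K α ^ j, hx, ?_⟩
  show ((unip K x * torK K α ^ j : G K) : Matrix (Fin 2) (Fin 2) (Adl K)) 0 0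
    = emb K ((α ^ j : Kˣ) : K)
  rw [torK_zpow465, unip_mul_torK_entry465]

end Fermat.Agent.LT.T3.H465

end
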