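import Mathlib
import Fermat.Agent.LT.T3.Spec
import Fermat.Agent.LT.T3.H465.EKBasic
import Fermat.Agent.LT.T3.H465.EKMix

/-!
# Row LT, tower T3, leaf T3.14 (`EKIdealC`), part 3: the leaf (helper465), OFF-MAIN

`ekIdealC_of465 : (local compactness, Hausdorff, second countability of 𝔸_K and GL₂(𝔸_K)) →
  (finiteness of K ∩ C for compact C ⊂ 𝔸_K) → T3.EKIdealC K`.

Proof.  `(f₁ ⋆ f)(g⁻¹ n(x) γʲ g') = ∫ f₁(y) f((g y)⁻¹ n(x) γʲ g') dy` and, by left invariance,
`(f ⋆ f₁)(g⁻¹ n(x) γʲ g') = ∫ f₁(u⁻¹) f(g⁻¹ n(x) γʲ (g' u)) du`; both are instances of the mixed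
sum `hasSum_mix465`, which is Fubini + the EK property of `f` at the points `(a(y), b(y))` + the
finiteness of the set of exponents `j` that contribute (if `α` has infinite order) resp. the
vanishing of every term (if `α` is a root of unity).
-/

set_option autoImplicit false
set_option linter.style.haveILetI false

open IsDedekindDomain NumberField MeasureTheory Filter
open Fermat.Agent.LT.H556.A0
open scoped Pointwise

noncomputable section

namespace Fermat.Agent.LT.T3.H465

open Fermat.Agent.LT.T3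

variable {K : Type} [Field K] [NumberField K]

/-- The inner integral over `x`. -/
def innerS465 {m : MeasurableSpace (Adl K)} (ν : Measure (Adl K)) (f : G K → ℂ)
    (a b : G K → G K) (γ : G K) (y : G K) : ℂ :=
  ∫ x, f ((a y)⁻¹ * unip K x * γ * b y) ∂ν

/-- If `α` is a root of unity, every term of the EK sum vanishes. -/
theorem term_eq_zero_of_finOrder465 {m : MeasurableSpace (Adl K)} {ν : Measure (Adl K)}
    {f : G K → ℂ} {α : Kˣ} (hEK : IsEK K ν f α) (hα : IsOfFinOrder α) (g g' : G K) (j : ℤ) :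
    ∫ x, f (g⁻¹ * unip K x * torK K α ^ j * g') ∂ν = 0 := by
  obtain ⟨n, hn, hαn⟩ := isOfFinOrder_iff_pow_eq_one.mp hα
  have hs := (hEK g g').summable.tendsto_cofinite_zero
  have hinj : Function.Injective (fun k : ℕ => j + (n : ℤ) * (k : ℤ)) := by
    intro k k' h
    have h1 : (n : ℤ) * (k : ℤ) = (n : ℤ) * (k' : ℤ) := by
      have := h
      simp only at this
      linarith
    have hn0 : (n : ℤ) ≠ 0 := by exact_mod_cast hn.ne'
    exact_mod_cast mul_left_cancel₀ hn0 h1
  have h2 := hs.comp hinj.tendsto_cofinite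
  have hpow : ∀ k : ℕ, torK K α ^ (j + (n : ℤ) * (k : ℤ)) = torK K α ^ j := by
    intro k
    have h1 : α ^ ((n : ℤ) * (k : ℤ)) = 1 := by
      rw [zpow_mul, zpow_natCast, zpow_natCast, hαn, one_pow]
    rw [zpow_add, zpow_mul]
    have h2 : (torK K α ^ (n : ℤ)) ^ (k : ℤ) = 1 := by
      rw [← zpow_mul, torK_zpow465, h1, torK_one465]
    rw [h2, mul_one]
  have h3 : Tendsto (fun _ : ℕ => ∫ x, f (g⁻¹ * unip K x * torK K α ^ j * g') ∂ν) cofinite
      (nhds 0) := by
    refine h2.congr (fun k => ?_)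
    simp only [Function.comp_def, hpow k]
  exact tendsto_nhds_unique tendsto_const_nhds h3

section core

set_option linter.unusedSectionVars false

variable [MeasurableSpace (Adl K)] [BorelSpace (Adl K)] [MeasurableSpace (G K)]
  [BorelSpace (G K)] [LocallyCompactSpace (Adl K)] [T2Space (Adl K)]
  [SecondCountableTopology (Adl K)] [LocallyCompactSpace (G K)] [T2Space (G K)]
  [SecondCountableTopology (G K)]

theorem integrable_mix465 (μ : Measure (G K)) [μ.IsHaarMeasure] (ν : Measure (Adl K))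
    [ν.IsAddHaarMeasure] {f w : G K → ℂ} {a b : G K → G K} (hf : Continuous f)
    (hfc : HasCompactSupport f) (hw : Continuous w) (hwc : HasCompactSupport w)
    (ha : Continuous a) (hb : Continuous b) (γ : G K) :
    Integrable (mix465 f w a b γ) (ν.prod μ) :=
  (continuous_mix465 hf hw ha hb γ).integrable_of_hasCompactSupport
    (hasCompactSupport_mix465 hfc hwc ha hb γ)

theorem swap_mix465 (μ : Measure (G K)) [μ.IsHaarMeasure] (ν : Measure (Adl K))
    [ν.IsAddHaarMeasure] {f w : G K → ℂ} {a b : G K → G K} (hf : Continuous f)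
    (hfc : HasCompactSupport f) (hw : Continuous w) (hwc : HasCompactSupport w)
    (ha : Continuous a) (hb : Continuous b) (γ : G K) :
    ∫ x, ∫ y, mix465 f w a b γ (x, y) ∂μ ∂ν = ∫ y, w y * innerS465 ν f a b γ y ∂μ := by
  have hint := integrable_mix465 μ ν hf hfc hw hwc ha hb γ
  have h := integral_integral_swap (f := fun x y => mix465 f w a b γ (x, y)) hint
  rw [h]
  refine integral_congr_ae (Eventually.of_forall fun y => ?_)
  simp only [mix465, innerS465]
  exact integral_const_mul _ _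

theorem integrable_inner465 (μ : Measure (G K)) [μ.IsHaarMeasure] (ν : Measure (Adl K))
    [ν.IsAddHaarMeasure] {f w : G K → ℂ} {a b : G K → G K} (hf : Continuous f)
    (hfc : HasCompactSupport f) (hw : Continuous w) (hwc : HasCompactSupport w)
    (ha : Continuous a) (hb : Continuous b) (γ : G K) :
    Integrable (fun y => w y * innerS465 ν f a b γ y) μ := by
  have hint := (integrable_mix465 μ ν hf hfc hw hwc ha hb γ).integral_prod_right
  refine hint.congr (Eventually.of_forall fun y => ?_)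
  simp only [mix465, innerS465]
  exact integral_const_mul _ _

/-- **The mixed EK sum vanishes.** -/
theorem hasSum_mix465
    (hfin : ∀ C₁ : Set (Adl K), IsCompact C₁ → {ξ : K | emb K ξ ∈ C₁}.Finite)
    (μ : Measure (G K)) [μ.IsHaarMeasure] (ν : Measure (Adl K)) [ν.IsAddHaarMeasure]
    {α : Kˣ} {f : G K → ℂ} (hf : Continuous f) (hfc : HasCompactSupport f)
    (hEK : IsEK K ν f α) {w : G K → ℂ} (hw : Continuous w) (hwc : HasCompactSupport w)
    {a b : G K → G K} (ha : Continuous a) (hb : Continuous b) :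
    HasSum (fun j : ℤ => ∫ x, ∫ y, mix465 f w a b (torK K α ^ j) (x, y) ∂μ ∂ν) 0 := by
  have hterm : (fun j : ℤ => ∫ x, ∫ y, mix465 f w a b (torK K α ^ j) (x, y) ∂μ ∂ν)
      = fun j : ℤ => ∫ y, w y * innerS465 ν f a b (torK K α ^ j) y ∂μ := by
    funext j
    exact swap_mix465 μ ν hf hfc hw hwc ha hb _
  rw [hterm]
  have hpt : ∀ y, HasSum (fun j : ℤ => innerS465 ν f a b (torK K α ^ j) y) 0 :=
    fun y => hEK (a y) (b y)
  obtain ⟨J, hJ⟩ : ∃ J : Finset ℤ, ∀ j ∉ J, ∀ y, w y ≠ 0 →
      innerS465 ν f a b (torK K α ^ j) y = 0 := by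
    by_cases hα : IsOfFinOrder α
    · exact ⟨∅, fun j _ y _ => term_eq_zero_of_finOrder465 hEK hα (a y) (b y) j⟩
    · have hfinJ := finite_exponents465 hfin hα (isCompact_mixSet465 hfc hwc ha hb)
      refine ⟨hfinJ.toFinset, fun j hj y hwy => ?_⟩
      have hj' : ¬ ∃ x, unip K x * torK K α ^ j ∈ mixSet465 f w a b := by
        simpa using hj
      have h0 : ∀ x, f ((a y)⁻¹ * unip K x * torK K α ^ j * b y) = 0 := by
        intro x
        by_contra h
        exact hj' ⟨x, mem_mixSet465 hwy h⟩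
      simp only [innerS465, h0, integral_zero]
  have hzero : ∀ j ∉ J, ∫ y, w y * innerS465 ν f a b (torK K α ^ j) y ∂μ = 0 := by
    intro j hj
    have h0 : ∀ y, w y * innerS465 ν f a b (torK K α ^ j) y = 0 := by
      intro y
      by_cases hwy : w y = 0
      · rw [hwy, zero_mul]
      · rw [hJ j hj y hwy, mul_zero]
    simp only [h0, integral_zero]
  have hsum : HasSum (fun j : ℤ => ∫ y, w y * innerS465 ν f a b (torK K α ^ j) y ∂μ)
      (∑ j ∈ J, ∫ y, w y * innerS465 ν f a b (torK K α ^ j) y ∂μ) :=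
    hasSum_sum_of_ne_finset_zero hzero
  have hfinsum : ∑ j ∈ J, ∫ y, w y * innerS465 ν f a b (torK K α ^ j) y ∂μ = 0 := by
    rw [← integral_finsetSum J
      (fun j _ => integrable_inner465 μ ν hf hfc hw hwc ha hb (torK K α ^ j))]
    have h0 : ∀ y, ∑ j ∈ J, w y * innerS465 ν f a b (torK K α ^ j) y = 0 := by
      intro y
      rw [← Finset.mul_sum]
      by_cases hwy : w y = 0
      · rw [hwy, zero_mul]
      · have h1 : HasSum (fun j : ℤ => innerS465 ν f a b (torK K α ^ j) y)
            (∑ j ∈ J, innerS465 ν f a b (torK K α ^ j) y) :=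
          hasSum_sum_of_ne_finset_zero (fun j hj => hJ j hj y hwy)
        rw [h1.unique (hpt y), mul_zero]
    simp only [h0, integral_zero]
  rwa [hfinsum] at hsum

/-- `f₁ ⋆ f` is EK. -/
theorem isEK_conv_right465
    (hfin : ∀ C₁ : Set (Adl K), IsCompact C₁ → {ξ : K | emb K ξ ∈ C₁}.Finite)
    (μ : Measure (G K)) [μ.IsHaarMeasure] (ν : Measure (Adl K)) [ν.IsAddHaarMeasure]
    {α : Kˣ} {f : G K → ℂ} (hf : Continuous f) (hfc : HasCompactSupport f)
    (hEK : IsEK K ν f α) {f₁ : G K → ℂ} (hf₁ : Continuous f₁) (hf₁c : HasCompactSupport f₁) :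
    IsEK K ν (convG K μ f₁ f) α := by
  intro g g'
  have h := hasSum_mix465 hfin μ ν hf hfc hEK hf₁ hf₁c (a := fun y => g * y)
    (b := fun _ => g') (continuous_const.mul continuous_id) continuous_const
  have he : (fun j : ℤ => ∫ x, convG K μ f₁ f (g⁻¹ * unip K x * torK K α ^ j * g') ∂ν)
      = fun j : ℤ => ∫ x, ∫ y, mix465 f f₁ (fun y => g * y) (fun _ => g')
          (torK K α ^ j) (x, y) ∂μ ∂ν := by
    funext j
    refine integral_congr_ae (Eventually.of_forall fun x => ?_)
    simp only [convG, mix465]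
    refine integral_congr_ae (Eventually.of_forall fun y => ?_)
    simp only [mul_inv_rev, mul_assoc]
  rw [he]
  exact h

/-- `f ⋆ f₁` is EK. -/
theorem isEK_conv_left465
    (hfin : ∀ C₁ : Set (Adl K), IsCompact C₁ → {ξ : K | emb K ξ ∈ C₁}.Finite)
    (μ : Measure (G K)) [μ.IsHaarMeasure] (ν : Measure (Adl K)) [ν.IsAddHaarMeasure]
    {α : Kˣ} {f : G K → ℂ} (hf : Continuous f) (hfc : HasCompactSupport f)
    (hEK : IsEK K ν f α) {f₁ : G K → ℂ} (hf₁ : Continuous f₁) (hf₁c : HasCompactSupport f₁) :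
    IsEK K ν (convG K μ f f₁) α := by
  intro g g'
  have hw : Continuous (fun u : G K => f₁ u⁻¹) := hf₁.comp continuous_inv
  have hwc : HasCompactSupport (fun u : G K => f₁ u⁻¹) :=
    hf₁c.comp_isClosedEmbedding (Homeomorph.inv (G K)).isClosedEmbedding
  have h := hasSum_mix465 hfin μ ν hf hfc hEK hw hwc (a := fun _ => g)
    (b := fun u => g' * u) continuous_const (continuous_const.mul continuous_id)
  have he : (fun j : ℤ => ∫ x, convG K μ f f₁ (g⁻¹ * unip K x * torK K α ^ j * g') ∂ν)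
      = fun j : ℤ => ∫ x, ∫ y, mix465 f (fun u : G K => f₁ u⁻¹) (fun _ => g)
          (fun u => g' * u) (torK K α ^ j) (x, y) ∂μ ∂ν := by
    funext j
    refine integral_congr_ae (Eventually.of_forall fun x => ?_)
    simp only [convG, mix465]
    rw [← integral_mul_left_eq_self
      (fun y => f y * f₁ (y⁻¹ * (g⁻¹ * unip K x * torK K α ^ j * g')))
      (g⁻¹ * unip K x * torK K α ^ j * g')]
    refine integral_congr_ae (Eventually.of_forall fun u => ?_)
    simp only [mul_inv_rev, mul_assoc, inv_mul_cancel_left, inv_mul_cancel, mul_one]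
    rw [mul_comm]
  rw [he]
  exact h

end core

/-- **T3.14** from local compactness etc. and the finiteness of `K ∩ C`. -/
theorem ekIdealC_of465
    (hA : LocallyCompactSpace (Adl K) ∧ T2Space (Adl K) ∧ SecondCountableTopology (Adl K))
    (hG : LocallyCompactSpace (G K) ∧ T2Space (G K) ∧ SecondCountableTopology (G K))
    (hfin : ∀ C₁ : Set (Adl K), IsCompact C₁ → {ξ : K | emb K ξ ∈ C₁}.Finite) :
    EKIdealC K := by
  obtain ⟨hA1, hA2, hA3⟩ := hA
  obtain ⟨hG1, hG2, hG3⟩ := hG
  letI : MeasurableSpace (Adl K) := borel (Adl K)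
  haveI : BorelSpace (Adl K) := ⟨rfl⟩
  letI : MeasurableSpace (G K) := borel (G K)
  haveI : BorelSpace (G K) := ⟨rfl⟩
  intro μ hμ ν hν α f hf hfc hEK f₁ hf₁ hf₁c
  haveI := hμ
  haveI := hν
  exact ⟨isEK_conv_left465 hfin μ ν hf hfc hEK hf₁ hf₁c,
    isEK_conv_right465 hfin μ ν hf hfc hEK hf₁ hf₁c⟩

end Fermat.Agent.LT.T3.H465

end
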