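import Mathlib
import Fermat.Agent.LT.T1.Spec
import Fermat.Agent.LT.T3.Spec
import Fermat.Agent.LT.T3.H465.EKIdeal

/-!
# Row LT, tower T3, leaf T3.14 (`EKIdealC`), adapter to the interface of tower T1 (helper465)

`ekIdealC_of_T1_465 : T1.LocCompC K → DiscreteTopology (T1.princ K) → T3.EKIdealC K`.
OFF-MAIN.
-/

set_option autoImplicit false
set_option linter.style.haveILetI false

open IsDedekindDomain NumberField MeasureTheory
open Fermat.Agent.LT.H556.A0

noncomputable section

namespace Fermat.Agent.LT.T3.H465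

open Fermat.Agent.LT.T3

variable (K : Type) [Field K] [NumberField K]

/-- A discrete subgroup of `𝔸_K` meets a compact set in a finite set. -/
theorem finite_rational_of_discrete465 [T2Space (Adl K)]
    (hd : DiscreteTopology (Fermat.Agent.LT.T1.princ K)) (C₁ : Set (Adl K))
    (hC₁ : IsCompact C₁) : {ξ : K | emb K ξ ∈ C₁}.Finite := by
  have hcl : IsClosed ((Fermat.Agent.LT.T1.princ K : AddSubgroup (Adl K)) : Set (Adl K)) :=
    AddSubgroup.isClosed_of_discrete
  have hS : IsCompact (((Fermat.Agent.LT.T1.princ K : AddSubgroup (Adl K)) : Set (Adl K)) ∩ C₁) :=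
    hC₁.inter_left hcl
  have hSd : DiscreteTopology
      ↥(((Fermat.Agent.LT.T1.princ K : AddSubgroup (Adl K)) : Set (Adl K)) ∩ C₁) :=
    DiscreteTopology.of_subset hd Set.inter_subset_left
  have hfin : (((Fermat.Agent.LT.T1.princ K : AddSubgroup (Adl K)) : Set (Adl K)) ∩ C₁).Finite :=
    hS.finite ⟨hSd⟩
  have hinj : Function.Injective (emb K) := NumberField.AdeleRing.algebraMap_injective (𝓞 K) K
  refine (hfin.preimage hinj.injOn).subset ?_
  intro ξ hξ
  exact ⟨⟨ξ, rfl⟩, hξ⟩

/-- **T3.14** from the interface Props of tower T1. -/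
theorem ekIdealC_of_T1_465 (hLC : Fermat.Agent.LT.T1.LocCompC K)
    (hd : DiscreteTopology (Fermat.Agent.LT.T1.princ K)) : EKIdealC K := by
  obtain ⟨hA, hG⟩ := hLC
  haveI := hA.2.1
  exact ekIdealC_of465 hA hG (finite_rational_of_discrete465 K hd)

/-- **T3.14** from `T1.LocCompC` and `T1.AdeleLatticeC`. -/
theorem ekIdealC_of_T1Out_465 (hLC : Fermat.Agent.LT.T1.LocCompC K)
    (hAL : Fermat.Agent.LT.T1.AdeleLatticeC K) : EKIdealC K :=
  ekIdealC_of_T1_465 K hLC hAL.1

end Fermat.Agent.LT.T3.H465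

end
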