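import Mathlib
import Fermat.Agent.LT.T1.Spec
import Fermat.Agent.LT.T3.Spec
import Fermat.Agent.LT.T1.H11.LocComp
import Fermat.Agent.LT.H767.AdeleDiscrete
import Fermat.Agent.LT.T3.H465.EKIdealT1

/-!
# Row LT, tower T3, leaf T3.14 (`EKIdealC`) CLOSED (helper465), OFF-MAIN

`ekIdealC465 : T3.EKIdealC K`, unconditional, with the closed leaves of tower T1:
`locCompC_h11` (helper11) and `discreteTopology_principal` (helper767), byte-identical copies.
-/

set_option autoImplicit false

open IsDedekindDomain NumberField MeasureTheory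
open Fermat.Agent.LT.H556.A0

noncomputable section

namespace Fermat.Agent.LT.T3.H465

open Fermat.Agent.LT.T3

variable (K : Type) [Field K] [NumberField K]

theorem princ_eq_principalSubgroup465 :
    Fermat.Agent.LT.T1.princ K = AdeleRing.principalSubgroup (𝓞 K) K := by
  ext x
  simp [Fermat.Agent.LT.T1.princ, AdeleRing.principalSubgroup]

/-- **T3.14 `EKIdealC`, closed.** -/
theorem ekIdealC465 : EKIdealC K := by
  refine ekIdealC_of_T1_465 K (Fermat.Agent.LT.T1.H11.locCompC_h11 K) ?_
  rw [princ_eq_principalSubgroup465]
  exact Fermat.Agent.LT.H767.discreteTopology_principal K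

end Fermat.Agent.LT.T3.H465

end
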